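import Fermat.Agent.S16.NoCong2a.Final
import Fermat.Agent.S16.NoCong3.Quad

set_option autoImplicit false

/-!
# S16 / NoCong2a: from the toolkit to the arithmetic core  (owner helper29)

Uses helper69's `CuspZeroData.quad_trace_int`, `CuspZeroData.upSeries_upSeries_int`,
`CuspZeroData.exists_swap_two` (S16/NoCong3/Quad.lean) and the arithmetic core
(`TwoA.core_contra`, `TwoA.eight_dvd_of_four`).
-/

namespace Fermat.Agent.S16.TwoA

open ModularCurve CuspForm UpperHalfPlane ModularFormClass PowerSeries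
open scoped MatrixGroups

/-- `σ₃` with integer values. -/
def sig3 (n : ℕ) : ℤ := ∑ d ∈ n.divisors, (d : ℤ) ^ 3

theorem sig3_one : sig3 1 = 1 := by
  simp [sig3]

theorem sig3_prime {p : ℕ} (hp : p.Prime) : sig3 p = (p : ℤ) ^ 3 + 1 := by
  unfold sig3
  rw [Nat.Prime.sum_divisors hp]
  simp

theorem odd_sig3_one : Odd (sig3 1) := by
  rw [sig3_one]; exact odd_one

theorem even_sig3_prime {p : ℕ} (hp : p.Prime) (hp2 : p ≠ 2) : Even (sig3 p) := by
  rw [sig3_prime hp]
  have hodd : Odd (p : ℤ) := by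
    have := hp.odd_of_ne_two hp2
    exact_mod_cast this
  exact (hodd.pow).add_odd odd_one

theorem coeff_eisenstein4 {n : ℕ} (hn : 1 ≤ n) : coeff n eisenstein4 = 240 * sig3 n := by
  have hn0 : n ≠ 0 := by omega
  simp [eisenstein4, sig3, hn0]

variable {p : ℕ} {hp : p ≠ 0}

/-- The quadratic identities for the integral `q`-expansion of a form of weight `2`. -/
theorem quadData_of_form (T : Fermat.Agent.S16.CuspZeroData p hp)
    (G : ModularForm (CongruenceSubgroup.Gamma0 p) 2) (a : ℕ → ℤ)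
    (ha : ∀ n : ℕ, qCoeff G n = (a n : ℂ)) : QuadData p (PowerSeries.mk a) sig3 where
  hL := T.upSeries_upSeries_int G a ha
  hQ := by
    intro n hn
    have h := congrArg (coeff n) (T.quad_trace_int G a ha)
    rw [map_add, coeff_C_mul, coeff_C_mul, Fermat.Agent.S16.coeff_upSeries,
      coeff_eisenstein4 hn, pow_two, pow_two] at h
    rw [h, coeff_mk]
    ring

/-- The integral `q`-expansion of the swapped form is `U_p A`. -/
theorem exists_swap_int (T : Fermat.Agent.S16.CuspZeroData p hp)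
    (G : ModularForm (CongruenceSubgroup.Gamma0 p) 2) (a : ℕ → ℤ)
    (ha : ∀ n : ℕ, qCoeff G n = (a n : ℂ)) :
    ∃ G' : ModularForm (CongruenceSubgroup.Gamma0 p) 2,
      ∀ n : ℕ, qCoeff G' n = ((fun m => a (p * m)) n : ℂ) := by
  obtain ⟨G', hG'⟩ := T.exists_swap_two G
  refine ⟨G', fun n => ?_⟩
  show (qExpansion 1 G').coeff n = _
  rw [hG', Fermat.Agent.S16.coeff_upSeries]
  exact ha (p * n)

theorem upSeries_mk (a : ℕ → ℤ) :
    Fermat.Agent.S16.upSeries p (PowerSeries.mk a) = PowerSeries.mk fun m => a (p * m) := by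
  ext n
  simp

/-- Main step: `p ≢ 7 mod 8`, `p` an odd prime: no form is `≡ odd mod 8`. -/
theorem no_unit_mod_eight (hpp : p.Prime) (hcase : p % 4 = 1 ∨ p % 8 = 3)
    (T : Fermat.Agent.S16.CuspZeroData p hp)
    (G : ModularForm (CongruenceSubgroup.Gamma0 p) 2) (a : ℕ → ℤ)
    (ha : ∀ n : ℕ, qCoeff G n = (a n : ℂ)) (hdiv : ∀ k, 1 ≤ k → (2 : ℤ) ^ 3 ∣ a k) :
    (2 : ℤ) ∣ a 0 := by
  by_contra h0
  have hodd : Odd (a 0) := by
    rw [← Int.not_even_iff_odd, even_iff_two_dvd]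
    exact h0
  have hp2 : p ≠ 2 := by
    rintro rfl
    omega
  obtain ⟨G', hG'⟩ := exists_swap_int T G a ha
  have D := quadData_of_form T G a ha
  have D' := quadData_of_form T G' _ hG'
  rw [← upSeries_mk] at D'
  refine core_contra p (PowerSeries.mk a) sig3 hcase D D' odd_sig3_one
    (even_sig3_prime hpp hp2) ?_ ?_
  · rw [coeff_mk]; exact hodd
  · intro k hk
    rw [coeff_mk]; exact hdiv k hk

/-- `p ≡ 1 mod 4`: no form is `≡ odd mod 4`. -/
theorem no_unit_mod_four (hpp : p.Prime) (hp4 : p % 4 = 1)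
    (T : Fermat.Agent.S16.CuspZeroData p hp)
    (G : ModularForm (CongruenceSubgroup.Gamma0 p) 2) (a : ℕ → ℤ)
    (ha : ∀ n : ℕ, qCoeff G n = (a n : ℂ)) (hdiv : ∀ k, 1 ≤ k → (2 : ℤ) ^ 2 ∣ a k) :
    (2 : ℤ) ∣ a 0 := by
  by_contra h0
  have hodd : Odd (a 0) := by
    rw [← Int.not_even_iff_odd, even_iff_two_dvd]
    exact h0
  have D := quadData_of_form T G a ha
  have h8 : ∀ k, 1 ≤ k → (2 : ℤ) ^ 3 ∣ a k := by
    intro k hk
    have := eight_dvd_of_four p (PowerSeries.mk a) sig3 hp4 D (by rw [coeff_mk]; exact hodd)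
      (fun k hk => by rw [coeff_mk]; exact hdiv k hk) k hk
    rwa [coeff_mk] at this
  exact h0 (no_unit_mod_eight hpp (Or.inl hp4) T G a ha h8)

end Fermat.Agent.S16.TwoA
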