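import Fermat.Agent.S16.ToolkitAlg.Trace

set_option autoImplicit false

/-!
# S16 / NoCong2a: the 2-adic arithmetic core  (owner helper29)

Pure arithmetic on integer power series.  `A = ∑ a(n) qⁿ ∈ ℤ⟦q⟧`, `U = U_p`, `p` odd.
Hypotheses (they come from the trace identities of the toolkit):
* `(L)`  `U (U A) = A`;
* `(Q)`  `p A² + U ((U A)²) = (p+1) a(0)² E₄`, `E₄ = 1 + 240 ∑ σ₃(n) qⁿ`.
If `2 ^ t ∣ a(k)` for all `k ≥ 1` then for `n ≥ 1`
`2 ^ (2t+1) ∣ 240 (p+1) a(0)² σ₃(n) - 2 (p+1) a(0) a(n)`   (`key`).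
-/

namespace Fermat.Agent.S16.TwoA

open PowerSeries Fermat.Agent.S16

section UpS

variable {R : Type*} [CommRing R] (p : ℕ)

theorem upSeries_C_mul (c : R) (f : R⟦X⟧) : upSeries p (C c * f) = C c * upSeries p f := by
  ext n; simp

theorem upSeries_C (hp : p ≠ 0) (c : R) : upSeries p (C c : R⟦X⟧) = C c := by
  ext n
  rw [coeff_upSeries, coeff_C, coeff_C]
  by_cases hn : n = 0
  · simp [hn]
  · rw [if_neg hn, if_neg (Nat.mul_ne_zero hp hn)]

end UpS

section ModTwo

/-- Squares modulo `2`: the coefficient of `qᵐ` in `F²` is `F_{m/2}` if `m` is even, else `0`. -/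
theorem coeff_sq_zmod_two (G : (ZMod 2)⟦X⟧) (m : ℕ) :
    coeff m (G * G) = if 2 ∣ m then coeff (m / 2) G else 0 := by
  classical
  rw [coeff_mul]
  have hsplit : ∑ x ∈ Finset.HasAntidiagonal.antidiagonal m, coeff x.1 G * coeff x.2 G
      = ∑ x ∈ (Finset.HasAntidiagonal.antidiagonal m).filter (fun x => x.1 = x.2), coeff x.1 G * coeff x.2 G
        + ∑ x ∈ (Finset.HasAntidiagonal.antidiagonal m).filter (fun x => ¬ x.1 = x.2),
            coeff x.1 G * coeff x.2 G :=
    (Finset.sum_filter_add_sum_filter_not _ _ _).symm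
  have hoff : ∑ x ∈ (Finset.HasAntidiagonal.antidiagonal m).filter (fun x => ¬ x.1 = x.2),
      coeff x.1 G * coeff x.2 G = 0 := by
    refine Finset.sum_involution (fun x _ => (x.2, x.1)) ?_ ?_ ?_ ?_
    · intro x _
      rw [mul_comm (coeff x.2 G)]
      have h2 : (2 : ZMod 2) = 0 := by decide
      rw [← two_mul, h2, zero_mul]
    · intro x hx _ h
      rw [Finset.mem_filter] at hx
      apply hx.2
      have := congrArg Prod.fst h
      simpa using this.symm
    · intro x hx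
      rw [Finset.mem_filter, Finset.HasAntidiagonal.mem_antidiagonal] at hx ⊢
      refine ⟨by simpa [add_comm] using hx.1, fun h => hx.2 h.symm⟩
    · intro x _
      rfl
  rw [hsplit, hoff, add_zero]
  have hsq : ∀ x : ZMod 2, x * x = x := by decide
  by_cases hm : 2 ∣ m
  · rw [if_pos hm]
    obtain ⟨k, rfl⟩ := hm
    have hfil : (Finset.HasAntidiagonal.antidiagonal (2 * k)).filter (fun x => x.1 = x.2) = {(k, k)} := by
      ext ⟨i, j⟩
      simp only [Finset.mem_filter, Finset.HasAntidiagonal.mem_antidiagonal, Finset.mem_singleton, Prod.mk.injEq]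
      omega
    rw [hfil, Finset.sum_singleton, hsq]
    simp
  · rw [if_neg hm]
    have hfil : (Finset.HasAntidiagonal.antidiagonal m).filter (fun x => x.1 = x.2) = ∅ := by
      ext ⟨i, j⟩
      simp only [Finset.mem_filter, Finset.HasAntidiagonal.mem_antidiagonal, Finset.notMem_empty, iff_false,
        not_and]
      intro h1 h2
      apply hm
      exact ⟨i, by omega⟩
    rw [hfil, Finset.sum_empty]

/-- Integer version: `(F²)_m ≡ [2 ∣ m] F_{m/2}` modulo `2`. -/
theorem coeff_sq_int_modTwo (F : ℤ⟦X⟧) (m : ℕ) :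
    (2 : ℤ) ∣ coeff m (F * F) - (if 2 ∣ m then coeff (m / 2) F else 0) := by
  have h := coeff_sq_zmod_two (PowerSeries.map (Int.castRingHom (ZMod 2)) F) m
  rw [← map_mul, coeff_map] at h
  have h2 : ((coeff m (F * F) - (if 2 ∣ m then coeff (m / 2) F else 0) : ℤ) : ZMod 2) = 0 := by
    push_cast
    rw [sub_eq_zero]
    have h' : (Int.castRingHom (ZMod 2)) (coeff m (F * F))
        = if 2 ∣ m then coeff (m / 2) (PowerSeries.map (Int.castRingHom (ZMod 2)) F) else 0 := h
    rw [eq_intCast] at h'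
    rw [h']
    split_ifs
    · rw [coeff_map, eq_intCast]
    · simp
  exact_mod_cast (ZMod.intCast_zmod_eq_zero_iff_dvd _ 2).mp h2

end ModTwo

section Key

variable (p : ℕ) (A : ℤ⟦X⟧) (sig : ℕ → ℤ)

/-- The two identities `(L)` and `(Q)` for an integral power series. -/
structure QuadData (p : ℕ) (A : ℤ⟦X⟧) (sig : ℕ → ℤ) : Prop where
  hL : upSeries p (upSeries p A) = A
  hQ : ∀ n, 1 ≤ n → (p : ℤ) * coeff n (A * A) + coeff (p * n) (upSeries p A * upSeries p A)
      = 240 * sig n * (p + 1) * (coeff 0 A) ^ 2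

/-- the "reduced" series `B = (A - a₀) / 2 ^ t` -/
noncomputable def redS (t : ℕ) (A : ℤ⟦X⟧) : ℤ⟦X⟧ :=
  PowerSeries.mk fun n => if n = 0 then 0 else coeff n A / 2 ^ t

theorem eq_C_add_redS (t : ℕ) (hdiv : ∀ k, 1 ≤ k → (2 : ℤ) ^ t ∣ coeff k A) :
    A = C (coeff 0 A) + C ((2 : ℤ) ^ t) * redS t A := by
  ext n
  rw [map_add, coeff_C, coeff_C_mul]
  by_cases hn : n = 0
  · subst hn
    simp [redS]
  · rw [if_neg hn, zero_add]
    simp only [redS, coeff_mk, if_neg hn]
    rw [Int.mul_ediv_cancel' (hdiv n (Nat.one_le_iff_ne_zero.mpr hn))]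

theorem coeff_zero_redS (t : ℕ) : coeff 0 (redS t A) = 0 := by
  simp [redS]

theorem coeff_sq_of_decomp (a0 c : ℤ) (B : ℤ⟦X⟧) {n : ℕ} (hn : 1 ≤ n) :
    coeff n ((C a0 + C c * B) * (C a0 + C c * B))
      = 2 * c * a0 * coeff n B + c ^ 2 * coeff n (B * B) := by
  have h : (C a0 + C c * B) * (C a0 + C c * B)
      = C (a0 ^ 2) + C (2 * c * a0) * B + C (c ^ 2) * (B * B) := by
    simp only [map_mul, map_pow, map_ofNat]
    ring
  rw [h, map_add, map_add, coeff_C, coeff_C_mul, coeff_C_mul, if_neg (by omega), zero_add]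

theorem key (hp : Odd p) (t : ℕ) (D : QuadData p A sig)
    (hdiv : ∀ k, 1 ≤ k → (2 : ℤ) ^ t ∣ coeff k A) (n : ℕ) (hn : 1 ≤ n) :
    (2 : ℤ) ^ (2 * t + 1) ∣
      240 * sig n * (p + 1) * (coeff 0 A) ^ 2 - 2 * (p + 1) * coeff 0 A * coeff n A := by
  have hp0 : p ≠ 0 := by
    rintro rfl
    simp at hp
  set a0 := coeff 0 A with ha0
  set B := redS t A with hB
  have hA : A = C a0 + C ((2 : ℤ) ^ t) * B := eq_C_add_redS A t hdiv
  have hUA : upSeries p A = C a0 + C ((2 : ℤ) ^ t) * upSeries p B := by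
    conv_lhs => rw [hA]
    rw [upSeries_add, upSeries_C p hp0, upSeries_C_mul]
  -- `U U B = B`
  have hUUB : ∀ m, coeff (p * (p * m)) B = coeff m B := by
    intro m
    by_cases hm : m = 0
    · subst hm; simp
    · have h1 := congrArg (coeff m) D.hL
      rw [coeff_upSeries, coeff_upSeries] at h1
      have hpm : p * (p * m) ≠ 0 := Nat.mul_ne_zero hp0 (Nat.mul_ne_zero hp0 hm)
      simp only [hB, redS, coeff_mk, if_neg hm, if_neg hpm]
      rw [h1]
  have hpn : 1 ≤ p * n := Nat.one_le_iff_ne_zero.mpr (Nat.mul_ne_zero hp0 (by omega))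
  have hQ := D.hQ n hn
  have e1 : coeff n (A * A)
      = 2 * (2 : ℤ) ^ t * a0 * coeff n B + ((2 : ℤ) ^ t) ^ 2 * coeff n (B * B) := by
    conv_lhs => rw [hA]
    exact coeff_sq_of_decomp a0 _ B hn
  have e2 : coeff (p * n) (upSeries p A * upSeries p A)
      = 2 * (2 : ℤ) ^ t * a0 * coeff n B
        + ((2 : ℤ) ^ t) ^ 2 * coeff (p * n) (upSeries p B * upSeries p B) := by
    rw [hUA, coeff_sq_of_decomp a0 _ (upSeries p B) hpn, coeff_upSeries, hUUB]
  have hAn : coeff n A = (2 : ℤ) ^ t * coeff n B := by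
    conv_lhs => rw [hA]
    rw [map_add, coeff_C, coeff_C_mul, if_neg (by omega), zero_add]
  -- parity
  obtain ⟨x, hx⟩ := coeff_sq_int_modTwo B n
  obtain ⟨y, hy⟩ := coeff_sq_int_modTwo (upSeries p B) (p * n)
  have hpar : (2 : ℤ) ∣ (p : ℤ) * coeff n (B * B) + coeff (p * n) (upSeries p B * upSeries p B) := by
    obtain ⟨r, hr⟩ := hp
    have hx' : coeff n (B * B) = (if 2 ∣ n then coeff (n / 2) B else 0) + 2 * x := by
      rw [← hx]; ring
    have hy' : coeff (p * n) (upSeries p B * upSeries p B)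
        = (if 2 ∣ p * n then coeff (p * n / 2) (upSeries p B) else 0) + 2 * y := by
      rw [← hy]; ring
    rw [hx', hy']
    by_cases h2 : 2 ∣ n
    · obtain ⟨m, rfl⟩ := h2
      have h2' : 2 ∣ p * (2 * m) := ⟨p * m, by ring⟩
      rw [if_pos ⟨m, rfl⟩, if_pos h2']
      have hd1 : 2 * m / 2 = m := by omega
      have hd2 : p * (2 * m) / 2 = p * m := by
        rw [show p * (2 * m) = 2 * (p * m) by ring]
        omega
      rw [hd1, hd2, coeff_upSeries, hUUB]
      refine ⟨(r + 1) * coeff m B + p * x + y, ?_⟩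
      rw [hr]
      push_cast
      ring
    · have h2' : ¬ 2 ∣ p * n := by
        intro h
        rcases (Nat.Prime.dvd_mul Nat.prime_two).mp h with h | h
        · rw [hr] at h
          omega
        · exact h2 h
      rw [if_neg h2, if_neg h2']
      exact ⟨p * x + y, by ring⟩
  obtain ⟨z, hz⟩ := hpar
  refine ⟨z, ?_⟩
  rw [← hQ, e1, e2, hAn]
  have : (2 : ℤ) ^ (2 * t + 1) = 2 * ((2 : ℤ) ^ t) ^ 2 := by ring
  rw [this]
  have hz' : coeff (p * n) (upSeries p B * upSeries p B) = 2 * z - (p : ℤ) * coeff n (B * B) := by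
    rw [← hz]; ring
  rw [hz']
  ring

end Key

end Fermat.Agent.S16.TwoA
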