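import Fermat.Agent.S16.NoCong2a.Core

set_option autoImplicit false

/-!
# S16 / NoCong2a: conclusion of the 2-adic arithmetic core  (owner helper29)

`core_contra`: if `A` and `U_p A` both satisfy the quadratic identity (`QuadData`), `a(0)` is odd,
`σ(1)` is odd, `σ(p)` is even and `8 ∣ a(k)` for `k ≥ 1`, then `p ≡ 7 mod 8`.
`eight_dvd_of_four`: for `p ≡ 1 mod 4`, `4 ∣ a(k)` for all `k ≥ 1` implies `8 ∣ a(k)`.
-/

namespace Fermat.Agent.S16.TwoA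

open PowerSeries Fermat.Agent.S16

theorem isCoprime_two_pow_of_odd (k : ℕ) {w : ℤ} (hw : Odd w) : IsCoprime ((2 : ℤ) ^ k) w := by
  apply IsCoprime.pow_left
  obtain ⟨r, hr⟩ := hw
  exact ⟨-r, 1, by rw [hr]; ring⟩

section

variable (p : ℕ) (A : ℤ⟦X⟧) (sig : ℕ → ℤ)

/-- `p ≡ 1 mod 4`: a form `≡ unit mod 4` is `≡ unit mod 8`. -/
theorem eight_dvd_of_four (hp4 : p % 4 = 1) (D : QuadData p A sig) (h0 : Odd (coeff 0 A))
    (hdiv : ∀ k, 1 ≤ k → (2 : ℤ) ^ 2 ∣ coeff k A) :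
    ∀ k, 1 ≤ k → (2 : ℤ) ^ 3 ∣ coeff k A := by
  intro n hn
  have hodd : Odd p := by
    rw [Nat.odd_iff]; omega
  have hk := key p A sig hodd 2 D hdiv n hn
  obtain ⟨m, hm⟩ : ∃ m : ℕ, p = 4 * m + 1 := ⟨p / 4, by omega⟩
  set u : ℤ := 2 * m + 1 with hu
  have hu_odd : Odd u := ⟨m, rfl⟩
  have hp1 : ((p : ℤ) + 1) = 2 * u := by
    rw [hm, hu]; push_cast; ring
  rw [hp1] at hk
  have h1 : (2 : ℤ) ^ (2 * 2 + 1) ∣ 4 * ((u * coeff 0 A) * coeff n A) := by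
    have h2 : (2 : ℤ) ^ (2 * 2 + 1) ∣ 240 * sig n * (2 * u) * coeff 0 A ^ 2 :=
      ⟨15 * sig n * u * coeff 0 A ^ 2, by ring⟩
    have h3 := dvd_sub h2 hk
    have : 240 * sig n * (2 * u) * coeff 0 A ^ 2
        - (240 * sig n * (2 * u) * coeff 0 A ^ 2 - 2 * (2 * u) * coeff 0 A * coeff n A)
        = 4 * ((u * coeff 0 A) * coeff n A) := by ring
    rwa [this] at h3
  have h4 : (2 : ℤ) ^ 3 ∣ (u * coeff 0 A) * coeff n A := by
    have : (2 : ℤ) ^ (2 * 2 + 1) = 4 * 2 ^ 3 := by norm_num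
    rw [this] at h1
    exact (mul_dvd_mul_iff_left (by norm_num : (4 : ℤ) ≠ 0)).mp h1
  exact (isCoprime_two_pow_of_odd 3 (hu_odd.mul h0)).dvd_of_dvd_mul_left h4

/-- `p ≢ 7 mod 8`: for a form `≡ unit mod 8`, `a(n)/8 ≡ σ(n) mod 2`. -/
theorem parity_of_eight (hcase : p % 4 = 1 ∨ p % 8 = 3) (D : QuadData p A sig)
    (h0 : Odd (coeff 0 A)) (hdiv : ∀ k, 1 ≤ k → (2 : ℤ) ^ 3 ∣ coeff k A) (n : ℕ) (hn : 1 ≤ n)
    (b : ℤ) (hb : coeff n A = 8 * b) : (2 : ℤ) ∣ b - sig n := by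
  have hodd : Odd p := by
    rw [Nat.odd_iff]; omega
  have hk := key p A sig hodd 3 D hdiv n hn
  rw [hb] at hk
  set a0 := coeff 0 A with ha0
  -- in both cases `2 ∣ u * a0 * (15 * sig n * a0 - b)` with `u` odd
  have hmain : ∃ u : ℤ, Odd u ∧ (2 : ℤ) ∣ (u * a0) * (15 * sig n * a0 - b) := by
    rcases hcase with h4 | h8
    · obtain ⟨m, hm⟩ : ∃ m : ℕ, p = 4 * m + 1 := ⟨p / 4, by omega⟩
      refine ⟨2 * m + 1, ⟨m, rfl⟩, ?_⟩
      have hp1 : ((p : ℤ) + 1) = 2 * (2 * m + 1) := by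
        rw [hm]; push_cast; ring
      rw [hp1] at hk
      have e : 240 * sig n * (2 * (2 * (m : ℤ) + 1)) * a0 ^ 2
          - 2 * (2 * (2 * (m : ℤ) + 1)) * a0 * (8 * b)
          = 32 * (((2 * (m : ℤ) + 1) * a0) * (15 * sig n * a0 - b)) := by ring
      rw [e] at hk
      have : (2 : ℤ) ^ (2 * 3 + 1) = 32 * 4 := by norm_num
      rw [this] at hk
      have h4' := (mul_dvd_mul_iff_left (by norm_num : (32 : ℤ) ≠ 0)).mp hk
      exact dvd_trans ⟨2, by norm_num⟩ h4'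
    · obtain ⟨m, hm⟩ : ∃ m : ℕ, p = 8 * m + 3 := ⟨p / 8, by omega⟩
      refine ⟨2 * m + 1, ⟨m, rfl⟩, ?_⟩
      have hp1 : ((p : ℤ) + 1) = 4 * (2 * m + 1) := by
        rw [hm]; push_cast; ring
      rw [hp1] at hk
      have e : 240 * sig n * (4 * (2 * (m : ℤ) + 1)) * a0 ^ 2
          - 2 * (4 * (2 * (m : ℤ) + 1)) * a0 * (8 * b)
          = 64 * (((2 * (m : ℤ) + 1) * a0) * (15 * sig n * a0 - b)) := by ring
      rw [e] at hk
      have : (2 : ℤ) ^ (2 * 3 + 1) = 64 * 2 := by norm_num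
      rw [this] at hk
      exact (mul_dvd_mul_iff_left (by norm_num : (64 : ℤ) ≠ 0)).mp hk
  obtain ⟨u, hu, h2⟩ := hmain
  have hc : IsCoprime (2 : ℤ) (u * a0) := by
    simpa using isCoprime_two_pow_of_odd 1 (hu.mul h0)
  have h3 : (2 : ℤ) ∣ 15 * sig n * a0 - b := hc.dvd_of_dvd_mul_left h2
  -- `15 * a0` is odd
  obtain ⟨r, hr⟩ := h0
  obtain ⟨c, hc'⟩ := h3
  refine ⟨15 * sig n * r + 7 * sig n - c, ?_⟩
  have : b = 15 * sig n * a0 - 2 * c := by rw [← hc']; ring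
  rw [this, hr]
  ring

/-- **The contradiction.** -/
theorem core_contra (hcase : p % 4 = 1 ∨ p % 8 = 3) (D : QuadData p A sig)
    (D' : QuadData p (upSeries p A) sig) (hsig1 : Odd (sig 1)) (hsigp : Even (sig p))
    (h0 : Odd (coeff 0 A)) (hdiv : ∀ k, 1 ≤ k → (2 : ℤ) ^ 3 ∣ coeff k A) : False := by
  have hp0 : p ≠ 0 := by
    rintro rfl
    omega
  have hp1 : 1 ≤ p := Nat.one_le_iff_ne_zero.mpr hp0
  obtain ⟨b, hb⟩ := hdiv p hp1
  have hb' : coeff p A = 8 * b := by rw [hb]; norm_num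
  have h1 := parity_of_eight p A sig hcase D h0 hdiv p hp1 b hb'
  have h0' : Odd (coeff 0 (upSeries p A)) := by
    rw [coeff_upSeries, mul_zero]; exact h0
  have hdiv' : ∀ k, 1 ≤ k → (2 : ℤ) ^ 3 ∣ coeff k (upSeries p A) := by
    intro k hk
    rw [coeff_upSeries]
    exact hdiv _ (Nat.one_le_iff_ne_zero.mpr (Nat.mul_ne_zero hp0 (by omega)))
  have hb'' : coeff 1 (upSeries p A) = 8 * b := by
    rw [coeff_upSeries, mul_one, hb']
  have h2 := parity_of_eight p (upSeries p A) sig hcase D' h0' hdiv' 1 le_rfl b hb''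
  -- `b ≡ sig p ≡ 0` and `b ≡ sig 1 ≡ 1`
  obtain ⟨x, hx⟩ := h1
  obtain ⟨y, hy⟩ := h2
  obtain ⟨s, hs⟩ := hsig1
  obtain ⟨e, he⟩ := hsigp
  have : (2 : ℤ) * (x + e - y - s) = 1 := by
    have hx' : b = sig p + 2 * x := by rw [← hx]; ring
    have hy' : b = sig 1 + 2 * y := by rw [← hy]; ring
    rw [hs] at hy'
    rw [he] at hx'
    have : (e + e + 2 * x) = (2 * s + 1 + 2 * y) := by rw [← hx', ← hy']
    linarith
  omega

end

end Fermat.Agent.S16.TwoA
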